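/-
S56 / FLAT / COUNT (chief helper139): DEFINITIONS of the top layer of the flat tangent bound.

`k` finite field of characteristic `p`, `s : GQ →* M2 k` a matrix form of `ρ̄`, `pp : Nat.Primes`
the prime `p`, `A = plc pp` the chosen place of `Qb` over `p`, `Gv pp` the local Galois group.

* `ICoc A s`     : cocycles `u : ↥(Iner A) → M2 k` for the conjugation action through `s`;
* `WI u`         : the `↥(Iner A)`-module `k² × k²`, `σ • (v, w) = (s σ v, s σ w + u σ s σ v)`,
                   i.e. `(k[ε])²` with the action of `(1 + ε u) s`;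
* `cm c x`       : the matrix `c x` of a local cocycle `c`;
* `IsFlatCoc c`  : the lift `(1 + ε c) s` is flat (as a module under the inertia group);
* `CountGoal pp s` : the restrictions to inertia of the flat classes take at most `|k|` values
  (the contract of the blocks RED and IRR is its `GQ`-form `CountGoalD`, FC/DDefs.lean).
Only definitions (with the small proofs needed to make them).
-/
import Fermat.Agent.S56.Interface
import Fermat.Agent.S56.Flat.Defs
import Fermat.Agent.S56.Loc.Defs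

set_option autoImplicit false

namespace Fermat.Agent.S56.Flat.FC

open Fermat.Agent.S55 Fermat.Agent.S56
open Fermat.Agent.S53 (M2)

variable {k : Type} [Field k]

/-- A cocycle on the inertia group, for the conjugation action through `s`. -/
structure ICoc (A : ValuationSubring Qb) (s : GQ →* M2 k) where
  /-- the underlying function -/
  toFun : ↥(Iner A) → M2 k
  map_mul' : ∀ σ τ : ↥(Iner A),
    toFun (σ * τ) = toFun σ + s (σ : GQ) * toFun τ * s ((σ : GQ)⁻¹)

variable {A : ValuationSubring Qb} {s : GQ →* M2 k}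

instance : CoeFun (ICoc A s) (fun _ => ↥(Iner A) → M2 k) := ⟨ICoc.toFun⟩

theorem ICoc.map_mul (u : ICoc A s) (σ τ : ↥(Iner A)) :
    u (σ * τ) = u σ + s (σ : GQ) * u τ * s ((σ : GQ)⁻¹) := u.map_mul' σ τ

theorem ICoc.map_one (u : ICoc A s) : u 1 = 0 := by
  have h := u.map_mul 1 1
  rw [mul_one, Subgroup.coe_one, inv_one, _root_.map_one, one_mul, mul_one] at h
  exact add_eq_left.1 h.symm

/-- `(k[ε])²` with the action of `(1 + ε u) s`. -/
def WI (_u : ICoc A s) : Type := (Fin 2 → k) × (Fin 2 → k)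

instance (u : ICoc A s) : AddCommGroup (WI u) :=
  inferInstanceAs (AddCommGroup ((Fin 2 → k) × (Fin 2 → k)))

instance (u : ICoc A s) [Finite k] : Finite (WI u) :=
  inferInstanceAs (Finite ((Fin 2 → k) × (Fin 2 → k)))

namespace WI

variable (u : ICoc A s)

/-- Constructor: `v + ε w`. -/
def mk (v w : Fin 2 → k) : WI u := (v, w)

/-- The reduction modulo `ε`. -/
def fst (x : WI u) : Fin 2 → k := x.1

/-- The coefficient of `ε`. -/
def snd (x : WI u) : Fin 2 → k := x.2

variable {u}

@[simp] theorem fst_mk (v w : Fin 2 → k) : (mk u v w).fst = v := rfl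
@[simp] theorem snd_mk (v w : Fin 2 → k) : (mk u v w).snd = w := rfl
@[simp] theorem fst_add (x y : WI u) : (x + y).fst = x.fst + y.fst := rfl
@[simp] theorem snd_add (x y : WI u) : (x + y).snd = x.snd + y.snd := rfl
@[simp] theorem fst_zero : (0 : WI u).fst = 0 := rfl
@[simp] theorem snd_zero : (0 : WI u).snd = 0 := rfl

@[ext] theorem ext {x y : WI u} (h₁ : x.fst = y.fst) (h₂ : x.snd = y.snd) : x = y :=
  Prod.ext h₁ h₂

theorem s_inv_mul (g : GQ) : s g⁻¹ * s g = 1 := by rw [← map_mul, inv_mul_cancel, map_one]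

noncomputable instance : DistribMulAction ↥(Iner A) (WI u) where
  smul σ x := mk u ((s (σ : GQ)).mulVec x.fst)
    ((s (σ : GQ)).mulVec x.snd + (u σ * s (σ : GQ)).mulVec x.fst)
  one_smul x := by
    apply ext
    · change (s ((1 : ↥(Iner A)) : GQ)).mulVec x.fst = x.fst
      simp
    · change (s ((1 : ↥(Iner A)) : GQ)).mulVec x.snd +
        (u 1 * s ((1 : ↥(Iner A)) : GQ)).mulVec x.fst = x.snd
      simp [u.map_one]
  mul_smul σ τ x := by
    apply ext
    · change (s ((σ * τ : ↥(Iner A)) : GQ)).mulVec x.fst =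
        (s (σ : GQ)).mulVec ((s (τ : GQ)).mulVec x.fst)
      rw [Subgroup.coe_mul, map_mul, Matrix.mulVec_mulVec]
    · change (s ((σ * τ : ↥(Iner A)) : GQ)).mulVec x.snd +
          (u (σ * τ) * s ((σ * τ : ↥(Iner A)) : GQ)).mulVec x.fst =
        (s (σ : GQ)).mulVec ((s (τ : GQ)).mulVec x.snd + (u τ * s (τ : GQ)).mulVec x.fst) +
          (u σ * s (σ : GQ)).mulVec ((s (τ : GQ)).mulVec x.fst)
      have h1 : u (σ * τ) * s ((σ * τ : ↥(Iner A)) : GQ) =
          s (σ : GQ) * (u τ * s (τ : GQ)) + u σ * s (σ : GQ) * s (τ : GQ) := by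
        rw [u.map_mul, Subgroup.coe_mul, map_mul, add_mul, add_comm]
        congr 1
        · rw [mul_assoc (s (σ : GQ) * u τ), ← mul_assoc (s (σ : GQ)⁻¹), s_inv_mul, one_mul,
            mul_assoc]
        · rw [mul_assoc]
      rw [h1, Subgroup.coe_mul, map_mul, Matrix.mulVec_add, Matrix.mulVec_mulVec,
        Matrix.mulVec_mulVec, Matrix.mulVec_mulVec, Matrix.add_mulVec, add_assoc]
  smul_zero σ := by
    apply ext
    · change (s (σ : GQ)).mulVec (0 : Fin 2 → k) = 0
      simp
    · change (s (σ : GQ)).mulVec (0 : Fin 2 → k) + (u σ * s (σ : GQ)).mulVec (0 : Fin 2 → k) = 0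
      simp
  smul_add σ x y := by
    apply ext
    · change (s (σ : GQ)).mulVec (x.fst + y.fst) =
        (s (σ : GQ)).mulVec x.fst + (s (σ : GQ)).mulVec y.fst
      rw [Matrix.mulVec_add]
    · change (s (σ : GQ)).mulVec (x.snd + y.snd) + (u σ * s (σ : GQ)).mulVec (x.fst + y.fst) =
        ((s (σ : GQ)).mulVec x.snd + (u σ * s (σ : GQ)).mulVec x.fst) +
          ((s (σ : GQ)).mulVec y.snd + (u σ * s (σ : GQ)).mulVec y.fst)
      rw [Matrix.mulVec_add, Matrix.mulVec_add]
      abel

@[simp] theorem fst_smul (σ : ↥(Iner A)) (x : WI u) :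
    (σ • x).fst = (s (σ : GQ)).mulVec x.fst := rfl

@[simp] theorem snd_smul (σ : ↥(Iner A)) (x : WI u) :
    (σ • x).snd = (s (σ : GQ)).mulVec x.snd + (u σ * s (σ : GQ)).mulVec x.fst := rfl

end WI

/-! ### local cocycles -/

/-- Local cocycles at `pp` with values in `ad⁰`. -/
abbrev LCoc (pp : Nat.Primes) (s : GQ →* M2 k) : Type :=
  Coc (lvlLoc pp) (ResMod (ιv pp) (Ad0 s))

/-- The matrix `c x`. -/
noncomputable def cm {pp : Nat.Primes} (c : LCoc pp s) (x : Gv pp) : M2 k :=
  ((ResMod.toRes (ιv pp)).symm (c x) : Ad0 s).mat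

/-- The lift `(1 + ε c) s` is flat. -/
def IsFlatCoc {pp : Nat.Primes} (c : LCoc pp s) : Prop :=
  ∃ u : ICoc (plc pp) s, (∀ (x : Gv pp) (h : ιv pp x ∈ Iner (plc pp)), u ⟨ιv pp x, h⟩ = cm c x) ∧
    FlatLoc (plc pp) (WI u)

/-- `c` and `c'` differ by a coboundary on the inertia group. -/
def UnrEq {pp : Nat.Primes} (c c' : LCoc pp s) : Prop :=
  ∃ m : M2 k, m.trace = 0 ∧ ∀ x ∈ inertiaLoc pp,
    cm c x - cm c' x = s (ιv pp x) * m * s (ιv pp x)⁻¹ - m

/-- The restrictions to the inertia group of the flat classes take at most `|k|` values. -/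
def CountGoal (pp : Nat.Primes) (s : GQ →* M2 k) : Prop :=
  ∃ (T : Type) (_ : Finite T) (Φ : {c : LCoc pp s // IsFlatCoc c} → T),
    Nat.card T ≤ Nat.card k ∧ ∀ c c', Φ c = Φ c' → UnrEq c.1 c'.1

/-- `ρ̄` restricted to the decomposition group at `pp` has a stable line. -/
def IsRed (pp : Nat.Primes) (s : GQ →* M2 k) : Prop :=
  ∃ v : Fin 2 → k, v ≠ 0 ∧ ∀ x : Gv pp, ∃ a : k, (s (ιv pp x)).mulVec v = a • v

end Fermat.Agent.S56.Flat.FC
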