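/-
S56 / FLAT / COUNT (chief helper139; proofs helper82), node FC-2: the matrix `cm c x` of a local cocycle: basic API.
Everything is unfolding (`ResMod.toRes` is the identity, `ResMod.smul_def`, `Ad0.mat_smul`,
`Coc.map_mul`, `Coc.level`, `lvlLoc pp = lvlAll.comap (ιv pp)`).
-/
import Fermat.Agent.S56.Flat.FC.Defs

set_option autoImplicit false

namespace Fermat.Agent.S56.Flat.FC

open Fermat.Agent.S55 Fermat.Agent.S56
open Fermat.Agent.S53 (M2)

variable {k : Type} [Field k] {s : GQ →* M2 k} {pp : Nat.Primes}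

theorem cm_mul (c : LCoc pp s) (x y : Gv pp) :
    cm c (x * y) = cm c x + s (ιv pp x) * cm c y * s (ιv pp x)⁻¹ := by
  unfold cm
  rw [c.map_mul]
  rfl

theorem cm_one (c : LCoc pp s) : cm c 1 = 0 := by
  unfold cm
  rw [c.map_one]
  rfl

theorem cm_trace (c : LCoc pp s) (x : Gv pp) : (cm c x).trace = 0 := Ad0.trace_mat _

theorem cm_add (c c' : LCoc pp s) (x : Gv pp) : cm (c.add c') x = cm c x + cm c' x := rfl

theorem cm_neg (c : LCoc pp s) (x : Gv pp) : cm c.neg x = - cm c x := rfl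

theorem cm_loc {S : Finset Nat.Primes} (c : Coc (lvlS S) (Ad0 s)) (x : Gv pp) :
    cm (c.loc pp) x = (c (ιv pp x)).mat := rfl

/-- finite level, in terms of fields -/
theorem cm_level (c : LCoc pp s) :
    ∃ F : IntermediateField ℚ Qb, FiniteDimensional ℚ F ∧
      ∀ x y : Gv pp, (∀ a ∈ F, ιv pp y a = a) → cm c (x * y) = cm c x := by
  obtain ⟨_, ⟨_, ⟨F, hf, -, rfl⟩, rfl⟩, h⟩ := c.level
  refine ⟨F, hf, fun x y hy => ?_⟩
  unfold cm
  rw [h x y]
  rw [Subgroup.mem_comap, IntermediateField.mem_fixingSubgroup_iff]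
  exact hy

/-- `cm c x` only depends on the image of `x` in `GQ`. -/
theorem cm_eq_of_ιv_eq (c : LCoc pp s) {x y : Gv pp} (h : ιv pp x = ιv pp y) :
    cm c x = cm c y := by
  obtain ⟨F, -, hF⟩ := cm_level c
  have h1 : ιv pp (x⁻¹ * y) = 1 := by rw [map_mul, map_inv, h, inv_mul_cancel]
  have h2 := hF x (x⁻¹ * y) (fun a _ => by rw [h1]; rfl)
  rw [mul_inv_cancel_left] at h2
  exact h2.symm

/-- two cocycles with the same matrices are equal -/
theorem ext_cm {c c' : LCoc pp s} (h : ∀ x, cm c x = cm c' x) : c = c' :=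
  Coc.ext fun x => (ResMod.toRes (ιv pp)).symm.injective (Ad0.ext (h x))

end Fermat.Agent.S56.Flat.FC
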