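/-
S56 / FLAT / COUNT (chief helper139): THE CONTRACT OF THE BLOCKS RED AND IRR, in the language of
`GQ`, a valuation subring `A` of `Qb` over `p`, its decomposition group `D` and inertia group `I`
(no cohomology groups, no local Galois group `Gv`, nothing from S55).

* `DCoc A s`      : functions `c : GQ → M2 k` which are, ON `D`, smooth trace zero cocycles for the
                    conjugation action through `s` (junk outside `D`);
* `c.IsFlat`      : the `I`-module `WI c.toICoc = (k[ε])²` with the action of `(1 + ε c) s` is flat;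
* `CountGoalD A s`: the restrictions to `I` of the flat cocycles take at most `|k|` values modulo
                    coboundaries of `I`;
* `HasLineA A s`  : `s|D` has a stable line.
Only definitions.
-/
import Fermat.Agent.S56.Flat.FC.Defs

set_option autoImplicit false

namespace Fermat.Agent.S56.Flat.FC

open Fermat.Agent.S55 Fermat.Agent.S56
open Fermat.Agent.S53 (M2)

variable {k : Type} [Field k]

/-- A smooth trace zero cocycle on the decomposition group of `A` (junk outside). -/
structure DCoc (A : ValuationSubring Qb) (s : GQ →* M2 k) where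
  /-- the underlying function -/
  toFun : GQ → M2 k
  map_mul' : ∀ g ∈ A.decompositionSubgroup ℚ, ∀ h ∈ A.decompositionSubgroup ℚ,
    toFun (g * h) = toFun g + s g * toFun h * s g⁻¹
  trace' : ∀ g ∈ A.decompositionSubgroup ℚ, (toFun g).trace = 0
  level' : ∃ F : IntermediateField ℚ Qb, FiniteDimensional ℚ F ∧
    ∀ g ∈ A.decompositionSubgroup ℚ, ∀ n ∈ A.decompositionSubgroup ℚ, (∀ a ∈ F, n a = a) →
      toFun (g * n) = toFun g

variable {A : ValuationSubring Qb} {s : GQ →* M2 k}

instance : CoeFun (DCoc A s) (fun _ => GQ → M2 k) := ⟨DCoc.toFun⟩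

theorem DCoc.map_mul (c : DCoc A s) {g h : GQ} (hg : g ∈ A.decompositionSubgroup ℚ)
    (hh : h ∈ A.decompositionSubgroup ℚ) : c (g * h) = c g + s g * c h * s g⁻¹ :=
  c.map_mul' g hg h hh

theorem DCoc.trace (c : DCoc A s) {g : GQ} (hg : g ∈ A.decompositionSubgroup ℚ) :
    (c g).trace = 0 := c.trace' g hg

theorem DCoc.level (c : DCoc A s) : ∃ F : IntermediateField ℚ Qb, FiniteDimensional ℚ F ∧
    ∀ g ∈ A.decompositionSubgroup ℚ, ∀ n ∈ A.decompositionSubgroup ℚ, (∀ a ∈ F, n a = a) →
      c (g * n) = c g := c.level'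

/-- The restriction to the inertia group. -/
def DCoc.toICoc (c : DCoc A s) : ICoc A s where
  toFun σ := c (σ : GQ)
  map_mul' σ τ := c.map_mul (Fermat.Agent.Lib.InertiaField.inertia_le_decomposition A σ.2)
    (Fermat.Agent.Lib.InertiaField.inertia_le_decomposition A τ.2)

@[simp] theorem DCoc.toICoc_apply (c : DCoc A s) (σ : ↥(Iner A)) : c.toICoc σ = c (σ : GQ) := rfl

/-- The lift `(1 + ε c) s` is flat. -/
def DCoc.IsFlat (c : DCoc A s) : Prop := FlatLoc A (WI c.toICoc)

/-- **THE CONTRACT OF RED AND IRR.** -/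
def CountGoalD (A : ValuationSubring Qb) (s : GQ →* M2 k) : Prop :=
  ∃ (T : Type) (_ : Finite T) (Φ : {c : DCoc A s // c.IsFlat} → T),
    Nat.card T ≤ Nat.card k ∧ ∀ c c', Φ c = Φ c' →
      ∃ m : M2 k, m.trace = 0 ∧ ∀ σ ∈ Iner A, c.1 σ - c'.1 σ = s σ * m * s σ⁻¹ - m

/-- `s` restricted to the decomposition group of `A` has a stable line. -/
def HasLineA (A : ValuationSubring Qb) (s : GQ →* M2 k) : Prop :=
  ∃ v : Fin 2 → k, v ≠ 0 ∧ ∀ g ∈ A.decompositionSubgroup ℚ, ∃ a : k, (s g).mulVec v = a • v

end Fermat.Agent.S56.Flat.FC
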