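/-
S56 / FLAT / COUNT (chief helper139), node FC-6: from the contract `CountGoalD (plc pp) s` (language of
`GQ`) to `CountGoal pp s` (local cocycles on `Gv pp`).

SKETCH.  `range_ιv : (ιv q).range = Dq q` (S55/Loc/Field/Basic.lean; `Dq q` is
`(plc q).decompositionSubgroup ℚ`).  For `c : LCoc pp s` put
`toD c g := if h : g ∈ (ιv pp).range then cm c h.choose else 0`; then `toD c (ιv pp x) = cm c x`
(`cm_eq_of_ιv_eq`), and `map_mul'`, `trace'`, `level'` follow from `cm_mul`, `cm_trace`, `cm_level`.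
If `IsFlatCoc c` with witness `u`, then `(toD c).toICoc = u` (same function; every `σ ∈ Iner` is
`ιv pp x`), so `(toD c).IsFlat`.  `Φ' c := Φ ⟨toD c, _⟩`; `x ∈ inertiaLoc pp ↔ ιv pp x ∈ Iner (plc pp)`
by definition.
-/
import Fermat.Agent.S56.Flat.FC.DDefs
import Fermat.Agent.S56.Flat.FC.Cm
import Fermat.Agent.S55.Loc.Field.Basic

set_option autoImplicit false

namespace Fermat.Agent.S56.Flat.FC

open Fermat.Agent.S55 Fermat.Agent.S56
open Fermat.Agent.S53 (M2)

variable {k : Type} [Field k] {s : GQ →* M2 k} {pp : Nat.Primes}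

open Classical in
/-- the function on `GQ` attached to a local cocycle (junk outside the decomposition group) -/
noncomputable def Adapter_toFun (c : LCoc pp s) (g : GQ) : M2 k :=
  if h : g ∈ (ιv pp).range then cm c h.choose else 0

theorem Adapter_toFun_ιv (c : LCoc pp s) (x : Gv pp) : Adapter_toFun c (ιv pp x) = cm c x := by
  have hx : ιv pp x ∈ (ιv pp).range := ⟨x, rfl⟩
  unfold Adapter_toFun
  rw [dif_pos hx]
  exact cm_eq_of_ιv_eq c hx.choose_spec

theorem Adapter_exists_of_mem {g : GQ} (hg : g ∈ (plc pp).decompositionSubgroup ℚ) :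
    ∃ x : Gv pp, ιv pp x = g := by
  have h : g ∈ (ιv pp).range := by
    rw [Fermat.Agent.S55.Loc.Field.range_ιv]
    exact hg
  exact h

/-- the cocycle on the decomposition group attached to a local cocycle -/
noncomputable def Adapter_toD (c : LCoc pp s) : DCoc (plc pp) s where
  toFun := Adapter_toFun c
  map_mul' g hg h hh := by
    obtain ⟨x, rfl⟩ := Adapter_exists_of_mem hg
    obtain ⟨y, rfl⟩ := Adapter_exists_of_mem hh
    rw [← map_mul, Adapter_toFun_ιv, Adapter_toFun_ιv, Adapter_toFun_ιv, cm_mul]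
  trace' g hg := by
    obtain ⟨x, rfl⟩ := Adapter_exists_of_mem hg
    rw [Adapter_toFun_ιv]
    exact cm_trace c x
  level' := by
    obtain ⟨F, hF, h⟩ := cm_level c
    refine ⟨F, hF, ?_⟩
    intro g hg n hn hfix
    obtain ⟨x, rfl⟩ := Adapter_exists_of_mem hg
    obtain ⟨y, rfl⟩ := Adapter_exists_of_mem hn
    rw [← map_mul, Adapter_toFun_ιv, Adapter_toFun_ιv]
    exact h x y hfix

theorem Adapter_toD_ιv (c : LCoc pp s) (x : Gv pp) : Adapter_toD c (ιv pp x) = cm c x :=
  Adapter_toFun_ιv c x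

theorem Adapter_ICoc_ext {A : ValuationSubring Qb} {u u' : ICoc A s} (h : ∀ σ, u σ = u' σ) :
    u = u' := by
  cases u
  cases u'
  congr
  exact funext h

theorem Adapter_isFlat {c : LCoc pp s} (hc : IsFlatCoc c) : (Adapter_toD c).IsFlat := by
  obtain ⟨u, hu, hflat⟩ := hc
  have e : (Adapter_toD c).toICoc = u := by
    apply Adapter_ICoc_ext
    rintro ⟨σ, hσ⟩
    obtain ⟨x, rfl⟩ := Adapter_exists_of_mem
      (Fermat.Agent.Lib.InertiaField.inertia_le_decomposition (plc pp) hσ)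
    rw [DCoc.toICoc_apply, hu x hσ]
    exact Adapter_toD_ιv c x
  unfold DCoc.IsFlat
  rw [e]
  exact hflat

theorem countGoal_of_countGoalD (h : CountGoalD (plc pp) s) : CountGoal pp s := by
  obtain ⟨T, hT, Φ, hcard, hΦ⟩ := h
  refine ⟨T, hT, fun c => Φ ⟨Adapter_toD c.1, Adapter_isFlat c.2⟩, hcard, ?_⟩
  intro c c' hcc
  obtain ⟨m, hm, hσ⟩ := hΦ _ _ hcc
  refine ⟨m, hm, fun x hx => ?_⟩
  have h1 := hσ (ιv pp x) hx
  rw [Adapter_toD_ιv, Adapter_toD_ιv] at h1
  exact h1

end Fermat.Agent.S56.Flat.FC
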