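/-
S56 / FLAT / COUNT (chief helper139): the adapter from helper78's abstract form `Irr.CountCore`
(cocycles on a group `H` mapping onto the decomposition group; here `H = ↥D`) to the contract
`CountGoalD` of FC/DDefs.lean.
-/
import Fermat.Agent.S56.Flat.FC.DDefs
import Fermat.Agent.S56.Flat.Irr.Defs2
import Fermat.Agent.S56.Flat.CountDefs
import Fermat.Agent.S56.Flat.Mod.Sub

set_option autoImplicit false

namespace Fermat.Agent.S56.Flat.FC

open Fermat.Agent.S55 Fermat.Agent.S56
open Fermat.Agent.S53 (M2)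

variable {k : Type} [Field k] {s : GQ →* M2 k} {p : ℕ} {A : ValuationSubring Qb}

private theorem ia_exists_stable (F : IntermediateField ℚ Qb) (hF : FiniteDimensional ℚ F) :
    ∃ F' : IntermediateField ℚ Qb, FiniteDimensional ℚ F' ∧ IsStableField F' ∧ F ≤ F' := by
  have hF' : @FiniteDimensional ℚ F _ _ (IntermediateField.module' F) := by
    convert hF
  haveI : IsGalois ℚ Qb := Fermat.Agent.Lib.Frobenius.isGalois_rat
  refine ⟨IntermediateField.normalClosure ℚ F Qb, ?_, ?_, F.le_normalClosure⟩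
  · have : FiniteDimensional ℚ (IntermediateField.normalClosure ℚ F Qb) :=
      normalClosure.is_finiteDimensional ℚ F Qb
    convert this
  · intro g x hx
    have hn : Normal ℚ (IntermediateField.normalClosure ℚ F Qb) := normalClosure.normal ℚ F Qb
    have := (IntermediateField.normal_iff_forall_map_le'.1 hn) g
    exact this ⟨x, hx, rfl⟩

/-- The inclusion of the decomposition group is a "local map". -/
theorem isLocMap_subtype (A : ValuationSubring Qb) :
    Irr.IsLocMap A (A.decompositionSubgroup ℚ).subtype :=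
  ⟨fun x => x.2, fun g hg => ⟨⟨g, hg⟩, rfl⟩⟩

theorem DCoc.map_one (c : DCoc A s) : c 1 = 0 := by
  have h := c.map_mul (one_mem (A.decompositionSubgroup ℚ)) (one_mem (A.decompositionSubgroup ℚ))
  rw [mul_one, inv_one, _root_.map_one, one_mul, mul_one] at h
  exact add_eq_left.1 h.symm

/-- The restriction of `c` to the decomposition group is a matrix cocycle. -/
theorem DCoc.isMCoc (c : DCoc A s) :
    Irr.IsMCoc (A.decompositionSubgroup ℚ).subtype s (fun x => c (x : GQ)) where
  map_mul x y := c.map_mul x.2 y.2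
  trace x := c.trace x.2
  level := by
    obtain ⟨F, hF, h⟩ := c.level
    obtain ⟨F', hF', hst, hle⟩ := ia_exists_stable F hF
    refine ⟨F'.fixingSubgroup, ⟨F', hF', hst, rfl⟩, fun n hn => ?_⟩
    have h1 := h 1 (one_mem _) n.1 n.2 fun a ha =>
      (IntermediateField.mem_fixingSubgroup_iff _ _).1 hn a (hle ha)
    rw [one_mul, c.map_one] at h1
    exact h1

theorem WI.p_smul [CharP k p] (u : ICoc A s) (w : WI u) : p • w = 0 := by
  apply WI.ext
  · change p • w.fst = 0
    funext i
    simp [CharP.cast_eq_zero k p]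
  · change p • w.snd = 0
    funext i
    simp [CharP.cast_eq_zero k p]

private theorem ia_eq_one_of_mulVec {M : M2 k} (h : ∀ v : Fin 2 → k, M.mulVec v = v) : M = 1 := by
  apply Matrix.ext_of_mulVec_single
  intro i
  rw [h, Matrix.one_mulVec]

private theorem ia_eq_zero_of_mulVec {M : M2 k} (h : ∀ v : Fin 2 → k, M.mulVec v = 0) : M = 0 := by
  apply Matrix.ext_of_mulVec_single
  intro i
  rw [h, Matrix.zero_mulVec]

theorem WI.of_actsTriv (u : ICoc A s) {σ : ↥(Iner A)} (h : ActsTriv (WI u) σ) :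
    s σ.1 = 1 ∧ u σ = 0 := by
  have h1 : s σ.1 = 1 := ia_eq_one_of_mulVec fun v => by
    have := congrArg (fun x : WI u => x.fst) (h (WI.mk u v 0))
    simpa using this
  refine ⟨h1, ia_eq_zero_of_mulVec fun v => ?_⟩
  have := congrArg (fun x : WI u => x.snd) (h (WI.mk u v 0))
  simpa [h1] using this

/-- A flat cocycle gives "flat data". -/
theorem DCoc.flatData [Finite k] [CharP k p] (c : DCoc A s) (hc : c.IsFlat) :
    Irr.FlatData A p (A.decompositionSubgroup ℚ).subtype s (fun x => c (x : GQ)) := by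
  refine ⟨c.isMCoc, WI c.toICoc, inferInstance, inferInstance, inferInstance,
    WI.p_smul c.toICoc, hc, fun σ hσ => ?_⟩
  obtain ⟨h1, h2⟩ := WI.of_actsTriv c.toICoc hσ
  refine ⟨h1, fun x hx => ?_⟩
  have hx' : (x : GQ) = σ.1 := hx
  change c (x : GQ) = 0
  rw [hx']
  exact h2

/-- `k²` is a submodule of `WI u`. -/
noncomputable def vbIncl (u : ICoc A s) : Vb s →+[↥(Iner A)] WI u where
  toFun w := WI.mk u 0 w.vec
  map_smul' σ w := by
    apply WI.ext
    · simp
    · simp only [WI.snd_mk, WI.snd_smul, WI.fst_mk, Matrix.mulVec_zero, add_zero]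
      rfl
  map_zero' := rfl
  map_add' w w' := by
    apply WI.ext
    · simp
    · rfl

theorem flatLoc_vb (u : ICoc A s) (h : FlatLoc A (WI u)) : FlatLoc A (Vb s) :=
  h.of_injective (vbIncl u) fun w w' hw => congrArg (fun x : WI u => x.snd) hw

/-- **The adapter.** -/
theorem countGoalD_of_countCore [Finite k] [CharP k p]
    (h : FlatLoc A (Vb s) → Irr.CountCore A p (A.decompositionSubgroup ℚ).subtype s) :
    CountGoalD A s := by
  by_cases hne : ∃ c : DCoc A s, c.IsFlat
  · obtain ⟨c₀, hc₀⟩ := hne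
    obtain ⟨T, hT, Φ, hcard, hΦ⟩ := h (flatLoc_vb c₀.toICoc hc₀)
    refine ⟨T, hT, fun c => Φ ⟨_, c.1.flatData c.2⟩, hcard, fun c c' hcc => ?_⟩
    obtain ⟨m, hm, hm'⟩ := hΦ _ _ hcc
    exact ⟨m, hm, fun σ hσ =>
      hm' ⟨σ, Fermat.Agent.Lib.InertiaField.inertia_le_decomposition A hσ⟩ hσ⟩
  · refine ⟨PUnit, inferInstance, fun _ => PUnit.unit, ?_, fun c => (hne ⟨c.1, c.2⟩).elim⟩
    rw [Nat.card_unique]
    exact Nat.card_pos

end Fermat.Agent.S56.Flat.FC
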