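/-
S56 / FLAT / COUNT (chief helper139), node FC-4: Baer sum on the inertia group.

SKETCH.  `flatLoc_neg`: `(v, w) ↦ (v, -w)` is an equivariant injection `WI u.neg → WI u`
(`FlatLoc.of_injective`, Flat/Mod/Sub.lean).
`flatLoc_add`: `P := WI u × WI u'` is flat (`Model.exists_prod`, Flat/Mod/Prod.lean).  Let `E` be the
auxiliary module `k² × k² × k²` with `σ • (v, w, w') = (s v, s w + u σ s v, s w' + u' σ s v)`
(define it in this file, as `WI` in FC/Defs.lean).  `(v, w, w') ↦ ((v, w), (v, w'))` is an equivariant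
injection `E → P`; `(v, w, w') ↦ (v, w + w')` is an equivariant surjection `E → WI (u.add u')`
(`FlatLoc.of_surjective`).
-/
import Fermat.Agent.S56.Flat.FC.Defs
import Fermat.Agent.S56.Flat.Mod.Sub
import Fermat.Agent.S56.Flat.Mod.Quot
import Fermat.Agent.S56.Flat.Mod.Prod

set_option autoImplicit false

namespace Fermat.Agent.S56.Flat.FC

open Fermat.Agent.S55 Fermat.Agent.S56
open Fermat.Agent.S53 (M2)

variable {k : Type} [Field k] {A : ValuationSubring Qb} {s : GQ →* M2 k} {p : ℕ}

/-- Sum of two cocycles. -/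
def ICoc.add (u u' : ICoc A s) : ICoc A s where
  toFun σ := u σ + u' σ
  map_mul' σ τ := by
    rw [u.map_mul, u'.map_mul, mul_add, add_mul]
    abel

/-- Opposite of a cocycle. -/
def ICoc.neg (u : ICoc A s) : ICoc A s where
  toFun σ := - u σ
  map_mul' σ τ := by
    rw [u.map_mul, mul_neg, neg_mul]
    abel

@[simp] theorem ICoc.add_apply (u u' : ICoc A s) (σ : ↥(Iner A)) : u.add u' σ = u σ + u' σ := rfl

@[simp] theorem ICoc.neg_apply (u : ICoc A s) (σ : ↥(Iner A)) : u.neg σ = - u σ := rfl

theorem flatLoc_neg {u : ICoc A s} (h : FlatLoc A (WI u)) : FlatLoc A (WI u.neg) := by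
  let j : WI u.neg →+[↥(Iner A)] WI u :=
    { toFun := fun x => WI.mk u x.fst (- x.snd)
      map_smul' := by
        intro σ x
        apply WI.ext
        · rfl
        · change -((s (σ : GQ)).mulVec x.snd + (u.neg σ * s (σ : GQ)).mulVec x.fst) =
            (s (σ : GQ)).mulVec (- x.snd) + (u σ * s (σ : GQ)).mulVec x.fst
          rw [ICoc.neg_apply, neg_mul, Matrix.neg_mulVec, Matrix.mulVec_neg, neg_add, neg_neg]
      map_zero' := by
        apply WI.ext
        · rfl
        · change -(0 : Fin 2 → k) = 0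
          rw [neg_zero]
      map_add' := by
        intro x y
        apply WI.ext
        · rfl
        · change -(x.snd + y.snd) = - x.snd + - y.snd
          rw [neg_add] }
  refine h.of_injective j ?_
  intro x y hxy
  have h1 : (j x).fst = (j y).fst := congrArg (WI.fst u) hxy
  have h2 : (j x).snd = (j y).snd := congrArg (WI.snd u) hxy
  have h2' : - x.snd = - y.snd := h2
  exact WI.ext h1 (neg_injective h2')

/-- The auxiliary module `k² × k² × k²` with
`σ • (v, w, w') = (s v, s w + u σ s v, s w' + u' σ s v)`. -/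
def BaerIE (_u _u' : ICoc A s) : Type := (Fin 2 → k) × (Fin 2 → k) × (Fin 2 → k)

instance (u u' : ICoc A s) : AddCommGroup (BaerIE u u') :=
  inferInstanceAs (AddCommGroup ((Fin 2 → k) × (Fin 2 → k) × (Fin 2 → k)))

instance (u u' : ICoc A s) [Finite k] : Finite (BaerIE u u') :=
  inferInstanceAs (Finite ((Fin 2 → k) × (Fin 2 → k) × (Fin 2 → k)))

noncomputable instance (u u' : ICoc A s) : SMul ↥(Iner A) (BaerIE u u') where
  smul σ x := ((s (σ : GQ)).mulVec x.1,
    (s (σ : GQ)).mulVec x.2.1 + (u σ * s (σ : GQ)).mulVec x.1,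
    (s (σ : GQ)).mulVec x.2.2 + (u' σ * s (σ : GQ)).mulVec x.1)

/-- The embedding `(v, w, w') ↦ ((v, w), (v, w'))`. -/
def BaerIE.emb (u u' : ICoc A s) : BaerIE u u' →+ WI u × WI u' where
  toFun x := (WI.mk u x.1 x.2.1, WI.mk u' x.1 x.2.2)
  map_zero' := rfl
  map_add' _ _ := rfl

theorem BaerIE.emb_injective (u u' : ICoc A s) : Function.Injective (BaerIE.emb u u') := by
  intro x y hxy
  have h1 : x.1 = y.1 := congrArg (fun z : WI u × WI u' => z.1.fst) hxy
  have h2 : x.2.1 = y.2.1 := congrArg (fun z : WI u × WI u' => z.1.snd) hxy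
  have h3 : x.2.2 = y.2.2 := congrArg (fun z : WI u × WI u' => z.2.snd) hxy
  exact Prod.ext h1 (Prod.ext h2 h3)

theorem BaerIE.emb_smul (u u' : ICoc A s) (σ : ↥(Iner A)) (x : BaerIE u u') :
    BaerIE.emb u u' (σ • x) = σ • BaerIE.emb u u' x := rfl

noncomputable instance (u u' : ICoc A s) : DistribMulAction ↥(Iner A) (BaerIE u u') :=
  (BaerIE.emb_injective u u').distribMulAction (BaerIE.emb u u') (BaerIE.emb_smul u u')

theorem flatLoc_add [Finite k] (hp : p.Prime) (hA : A.LiesOverPrime p) {u u' : ICoc A s}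
    (h : FlatLoc A (WI u)) (h' : FlatLoc A (WI u')) : FlatLoc A (WI (u.add u')) := by
  obtain ⟨M⟩ := h
  obtain ⟨M'⟩ := h'
  obtain ⟨M₂, -⟩ := M.exists_prod M'
  have hP : FlatLoc A (WI u × WI u') := ⟨M₂⟩
  let j : BaerIE u u' →+[↥(Iner A)] WI u × WI u' :=
    { toFun := BaerIE.emb u u'
      map_smul' := BaerIE.emb_smul u u'
      map_zero' := map_zero _
      map_add' := map_add _ }
  have hE : FlatLoc A (BaerIE u u') := hP.of_injective j (BaerIE.emb_injective u u')
  let q : BaerIE u u' →+[↥(Iner A)] WI (u.add u') :=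
    { toFun := fun x => WI.mk (u.add u') x.1 (x.2.1 + x.2.2)
      map_smul' := by
        intro σ x
        apply WI.ext
        · rfl
        · change ((s (σ : GQ)).mulVec x.2.1 + (u σ * s (σ : GQ)).mulVec x.1) +
              ((s (σ : GQ)).mulVec x.2.2 + (u' σ * s (σ : GQ)).mulVec x.1) =
            (s (σ : GQ)).mulVec (x.2.1 + x.2.2) + (u.add u' σ * s (σ : GQ)).mulVec x.1
          rw [ICoc.add_apply, add_mul, Matrix.add_mulVec, Matrix.mulVec_add]
          abel
      map_zero' := by
        apply WI.ext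
        · rfl
        · change (0 : Fin 2 → k) + 0 = 0
          rw [add_zero]
      map_add' := by
        intro x y
        apply WI.ext
        · rfl
        · change (x.2.1 + y.2.1) + (x.2.2 + y.2.2) = (x.2.1 + x.2.2) + (y.2.1 + y.2.2)
          abel }
  refine hE.of_surjective hp hA q ?_
  intro y
  exact ⟨(y.fst, y.snd, 0), WI.ext rfl (add_zero _)⟩

end Fermat.Agent.S56.Flat.FC
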