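/-
S56 / FLAT / COUNT (chief helper139): flat local cocycles are stable under sum and opposite.
-/
import Fermat.Agent.S56.Flat.FC.BaerI
import Fermat.Agent.S56.Flat.FC.Cm
import Fermat.Agent.S55.Loc.Unr.UnitsLoc

set_option autoImplicit false

namespace Fermat.Agent.S56.Flat.FC

open Fermat.Agent.S55 Fermat.Agent.S56
open Fermat.Agent.S53 (M2)

variable {k : Type} [Field k] {s : GQ →* M2 k} {pp : Nat.Primes}

theorem IsFlatCoc.neg {c : LCoc pp s} (h : IsFlatCoc c) : IsFlatCoc c.neg := by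
  obtain ⟨u, hu, hf⟩ := h
  exact ⟨u.neg, fun x hx => by rw [ICoc.neg_apply, hu x hx, cm_neg], flatLoc_neg hf⟩

theorem IsFlatCoc.add [Finite k] {c c' : LCoc pp s} (h : IsFlatCoc c) (h' : IsFlatCoc c') :
    IsFlatCoc (c.add c') := by
  obtain ⟨u, hu, hf⟩ := h
  obtain ⟨u', hu', hf'⟩ := h'
  exact ⟨u.add u', fun x hx => by rw [ICoc.add_apply, hu x hx, hu' x hx, cm_add],
    flatLoc_add pp.2 (Fermat.Agent.S55.Loc.UnitsLocAux.plc_liesOver pp) hf hf'⟩

end Fermat.Agent.S56.Flat.FC
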