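/-
S56 / FLAT / COUNT (chief helper139), node FC-1 (Mathlib only): counting a subgroup by the fibres of
a map whose fibres lie in cosets of a finite subgroup.

SKETCH.  For `t` in the range of `f` choose `r t : L` with `f (r t) = t`.  The map
`x ↦ (f x, ⟨x - r (f x), _⟩) : L → T × U` is injective.  `Finite.of_injective`,
`Nat.card_le_card_of_injective`, `Nat.card_prod`.
-/
import Mathlib

set_option autoImplicit false

namespace Fermat.Agent.S56.Flat.FC

theorem card_le_of_fibres {G : Type} [AddCommGroup G] (L U : AddSubgroup G) [Finite U]
    {T : Type} [Finite T] (f : L → T) (h : ∀ x y : L, f x = f y → (x : G) - (y : G) ∈ U) :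
    Finite L ∧ Nat.card L ≤ Nat.card T * Nat.card U := by
  classical
  -- a representative of the fibre through `x`
  have hex : ∀ x : L, ∃ y : L, f y = f x := fun x => ⟨x, rfl⟩
  let r : T → L := fun t => if ht : ∃ y : L, f y = t then ht.choose else 0
  have hr : ∀ x : L, f (r (f x)) = f x := by
    intro x
    have ht : ∃ y : L, f y = f x := hex x
    simp only [r, dif_pos ht]
    exact ht.choose_spec
  let g : L → T × U := fun x => (f x, ⟨(x : G) - (r (f x) : G), h x (r (f x)) (hr x).symm⟩)
  have hg : Function.Injective g := by
    intro x y hxy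
    have h1 : f x = f y := congrArg Prod.fst hxy
    have h2 : (x : G) - (r (f x) : G) = (y : G) - (r (f y) : G) :=
      congrArg (fun z : T × U => ((z.2 : U) : G)) hxy
    rw [h1] at h2
    exact Subtype.ext (sub_left_injective h2)
  have hfin : Finite L := Finite.of_injective g hg
  refine ⟨hfin, ?_⟩
  rw [← Nat.card_prod]
  exact Nat.card_le_card_of_injective g hg

end Fermat.Agent.S56.Flat.FC
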