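/-
S56 / FLAT / COUNT (chief helper139), node FC-5 (IN): a global lift `(1 + ε c) s` which is flat at `p`
in the sense of the Prelude gives a flat local cocycle.

SKETCH.  `u σ := (c σ).mat` (`Coc.map_mul`, `Ad0.mat_smul`) is an `ICoc (plc pp) s`, and
`u ⟨ιv pp x, _⟩ = cm (c.loc pp) x` by `cm_loc`.  Apply `IsFlatAt` to the ideal `⊥` of `Dk 𝒪`
(`Finite (Dk 𝒪 ⧸ ⊥)`: `Dk 𝒪` is finite because the residue field is) to get `H`, `e`.
`V ⧸ (⊥ • ⊤) ≃ V = Fin 2 → Dk 𝒪 ≃ WI u`, `z ↦ (fun i => (z i).fst, fun i => (z i).snd)`; the action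
`levelAction ⊥ σ` becomes `Matrix.toLin' (r σ)` (`toAdic_ρ`), `r σ = dmat (s σ) ((c σ).mat * s σ)`, which
is the action of `WI u` (`Dk.mk_mul`, `Dk.mk_add`).  Conclude by `flatLoc_of_hopf`.
-/
import Fermat.Agent.S56.Flat.FC.Defs
import Fermat.Agent.S56.Flat.FC.Cm
import Fermat.Agent.S56.Flat.Mod.In
import Fermat.Agent.S55.Loc.Unr.UnitsLoc

set_option autoImplicit false

namespace Fermat.Agent.S56.Flat.FC

open Fermat.Agent.S55 Fermat.Agent.S56 IsLocalRing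
open Fermat.Agent.S53 (M2 MatCont toAdic Gal Dk)
open Fermat.Agent.S53.Tangent (Dk.mk)

section Aux

variable {𝒪 : Type} [CommRing 𝒪] [IsLocalRing 𝒪]

/-- the reduction modulo `ε` -/
noncomputable def In.dfst : Dk 𝒪 →+ ResidueField 𝒪 where
  toFun z := TrivSqZeroExt.fst (show DualNumber (ResidueField 𝒪) from z)
  map_zero' := rfl
  map_add' _ _ := rfl

/-- the coefficient of `ε` -/
noncomputable def In.dsnd : Dk 𝒪 →+ ResidueField 𝒪 where
  toFun z := TrivSqZeroExt.snd (show DualNumber (ResidueField 𝒪) from z)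
  map_zero' := rfl
  map_add' _ _ := rfl

theorem In.dfst_mk (a b : ResidueField 𝒪) : In.dfst (Dk.mk a b : Dk 𝒪) = a :=
  Fermat.Agent.S53.Tangent.dmk_fst a b

theorem In.dsnd_mk (a b : ResidueField 𝒪) : In.dsnd (Dk.mk a b : Dk 𝒪) = b :=
  Fermat.Agent.S53.Tangent.dmk_snd a b

theorem In.mk_dfst_dsnd (z : Dk 𝒪) : Dk.mk (In.dfst z) (In.dsnd z) = z := by
  obtain ⟨a, b, rfl⟩ := Fermat.Agent.S53.Tangent.Dk.exists_mk z
  rw [In.dfst_mk, In.dsnd_mk]

theorem In.dfst_mk_mul (a b : ResidueField 𝒪) (z : Dk 𝒪) :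
    In.dfst (Dk.mk a b * z) = a * In.dfst z := by
  obtain ⟨a', b', rfl⟩ := Fermat.Agent.S53.Tangent.Dk.exists_mk z
  rw [Fermat.Agent.S53.Tangent.Dk.mk_mul, In.dfst_mk, In.dfst_mk]

theorem In.dsnd_mk_mul (a b : ResidueField 𝒪) (z : Dk 𝒪) :
    In.dsnd (Dk.mk a b * z) = a * In.dsnd z + b * In.dfst z := by
  obtain ⟨a', b', rfl⟩ := Fermat.Agent.S53.Tangent.Dk.exists_mk z
  rw [Fermat.Agent.S53.Tangent.Dk.mk_mul, In.dsnd_mk, In.dsnd_mk, In.dfst_mk, mul_comm a' b]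

instance In.finite_Dk [Finite (ResidueField 𝒪)] : Finite (Dk 𝒪) :=
  Finite.of_injective (fun z : Dk 𝒪 => (In.dfst z, In.dsnd z)) (by
    intro z z' h
    rw [← In.mk_dfst_dsnd z, ← In.mk_dfst_dsnd z']
    rw [Prod.mk.injEq] at h
    rw [h.1, h.2])

theorem In.dfst_mulVec (a b : M2 (ResidueField 𝒪)) (v : Fin 2 → Dk 𝒪) (i : Fin 2) :
    In.dfst ((dmat a b).mulVec v i) = a.mulVec (fun j => In.dfst (v j)) i := by
  simp only [Matrix.mulVec, dotProduct, map_sum, dmat_apply, In.dfst_mk_mul]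

theorem In.dsnd_mulVec (a b : M2 (ResidueField 𝒪)) (v : Fin 2 → Dk 𝒪) (i : Fin 2) :
    In.dsnd ((dmat a b).mulVec v i) =
      a.mulVec (fun j => In.dsnd (v j)) i + b.mulVec (fun j => In.dfst (v j)) i := by
  simp only [Matrix.mulVec, dotProduct, map_sum, dmat_apply, In.dsnd_mk_mul,
    Finset.sum_add_distrib]

/-- the cocycle on the inertia group attached to a global cocycle -/
noncomputable def In.icoc (A : ValuationSubring Qb) (s : Gal →* M2 (ResidueField 𝒪))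
    {𝓝 : LevelSys GQ} (c : Coc 𝓝 (Ad0 s)) : ICoc A s where
  toFun σ := (c (σ : GQ)).mat
  map_mul' σ τ := by
    rw [Subgroup.coe_mul, c.map_mul, Ad0.mat_add, Ad0.mat_smul]

theorem In.icoc_apply (A : ValuationSubring Qb) (s : Gal →* M2 (ResidueField 𝒪))
    {𝓝 : LevelSys GQ} (c : Coc 𝓝 (Ad0 s)) (σ : ↥(Iner A)) :
    In.icoc A s c σ = (c (σ : GQ)).mat := rfl

/-- `(k[ε])² ≃ k² × k²` -/
noncomputable def In.vecEquiv {A : ValuationSubring Qb} {s : Gal →* M2 (ResidueField 𝒪)}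
    (u : ICoc A s) : (Fin 2 → Dk 𝒪) ≃+ WI u where
  toFun v := WI.mk u (fun i => In.dfst (v i)) (fun i => In.dsnd (v i))
  invFun x := fun i => Dk.mk (WI.fst u x i) (WI.snd u x i)
  left_inv v := by
    funext i
    simp only [WI.fst_mk, WI.snd_mk, In.mk_dfst_dsnd]
  right_inv x := by
    apply WI.ext
    · funext i
      simp only [WI.fst_mk, In.dfst_mk]
    · funext i
      simp only [WI.snd_mk, In.dsnd_mk]
  map_add' v w := by
    apply WI.ext
    · funext i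
      simp only [WI.fst_mk, WI.fst_add, Pi.add_apply, map_add]
    · funext i
      simp only [WI.snd_mk, WI.snd_add, Pi.add_apply, map_add]

theorem In.vecEquiv_mulVec {A : ValuationSubring Qb} {s : Gal →* M2 (ResidueField 𝒪)}
    (u : ICoc A s) (σ : ↥(Iner A)) (v : Fin 2 → Dk 𝒪) :
    In.vecEquiv u ((dmat (s (σ : GQ)) (u σ * s (σ : GQ))).mulVec v) = σ • In.vecEquiv u v := by
  apply WI.ext
  · funext i
    rw [WI.fst_smul]
    exact In.dfst_mulVec _ _ v i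
  · funext i
    rw [WI.snd_smul]
    exact In.dsnd_mulVec _ _ v i

end Aux

theorem isFlatCoc_loc {𝒪 : Type} [CommRing 𝒪] [IsLocalRing 𝒪] [Finite (ResidueField 𝒪)]
    (pp : Nat.Primes) (s : Gal →* M2 (ResidueField 𝒪)) {S : Finset Nat.Primes}
    (c : Coc (lvlS S) (Ad0 s)) (r : Gal →* M2 (Dk 𝒪)) (hr : MatCont r) (hl : IsLiftOf s c r)
    (hf : (toAdic r hr).IsFlatAt (pp : ℕ)) : IsFlatCoc (c.loc pp) := by
  refine ⟨In.icoc (plc pp) s c, fun x h => ?_, ?_⟩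
  · rw [cm_loc, In.icoc_apply]
  · have hfin : Finite (Dk 𝒪 ⧸ (⊥ : Ideal (Dk 𝒪))) :=
      Finite.of_surjective (Ideal.Quotient.mk ⊥) Ideal.Quotient.mk_surjective
    obtain ⟨H, i1, i2, i3, i4, i5, e, he_add, he_gal⟩ := hf.2 ⊥ hfin
    have hbot : ((⊥ : Ideal (Dk 𝒪)) • (⊤ : Submodule (Dk 𝒪) (toAdic r hr).V)) = ⊥ :=
      Submodule.bot_smul _
    let q : ((toAdic r hr).V ⧸ ((⊥ : Ideal (Dk 𝒪)) • (⊤ : Submodule (Dk 𝒪) (toAdic r hr).V))) ≃+
        (Fin 2 → Dk 𝒪) := (Submodule.quotEquivOfEqBot _ hbot).toAddEquiv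
    let φ := q.trans (In.vecEquiv (In.icoc (plc pp) s c))
    refine flatLoc_of_hopf pp.2 (Loc.UnitsLocAux.plc_liesOver pp) H (e.trans φ.toEquiv) ?_ ?_
    · intro f g
      change φ (e (f * g)) = φ (e f) + φ (e g)
      rw [he_add, map_add]
    · intro σ f g hfg
      change φ (e g) = σ • φ (e f)
      rw [he_gal σ.1 f g hfg]
      obtain ⟨v, hv⟩ := Submodule.Quotient.mk_surjective _ (e f)
      rw [← hv]
      change In.vecEquiv _ (q ((toAdic r hr).levelAction ⊥ σ.1 (Submodule.Quotient.mk v))) =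
        σ • In.vecEquiv _ (q (Submodule.Quotient.mk v))
      have h1 : (toAdic r hr).levelAction ⊥ σ.1 (Submodule.Quotient.mk v) =
          Submodule.Quotient.mk ((toAdic r hr).ρ σ.1 v) := Submodule.mapQ_apply _ _ _ _
      have h2 : ∀ w : (toAdic r hr).V, q (Submodule.Quotient.mk w) = w := fun w => by
        apply q.symm.injective
        rw [AddEquiv.symm_apply_apply]
        rfl
      rw [h1, h2, h2]
      change In.vecEquiv _ ((r σ.1).mulVec v) = _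
      rw [hl σ.1]
      exact In.vecEquiv_mulVec (In.icoc (plc pp) s c) σ v

end Fermat.Agent.S56.Flat.FC
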