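/-
S56 / FLAT / COUNT (chief helper139), node FC-3: unramified classes at `p`.

SKETCH.  `smooth_Ad0`: `ResHyp.fin` gives `L` finite over `ℚ` with `s = 1` on its fixing group; enlarge
`L` to a stable finite field (`exists_stable_finite` + sup, or the normal closure) to get a member of
`lvlAll.carrier` acting trivially on `Ad0 s`.
`cls_mem_Lur_of_unrEq`: `c'' x := c x - c' x - (x • m - m)` is a cocycle (level: `m` is fixed by a
level, `Smooth`), same class as `c.add c'.neg` (`Coc.cls_eq_cls_iff`), vanishes on `inertiaLoc pp`.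
`card_Lur_le`: `Loc.card_LurA_le` with `S55.Loc.inertiaLoc_normal` (S55/Loc/Unr/UnitsLoc.lean) and
`Loc.exists_isDenseGen`.
-/
import Fermat.Agent.S56.Flat.FC.Defs
import Fermat.Agent.S56.Flat.FC.Cm
import Fermat.Agent.S56.Loc.AbsUr
import Fermat.Agent.S56.Loc.MuTriv
import Fermat.Agent.S55.Loc.Unr.UnitsLoc

set_option autoImplicit false

namespace Fermat.Agent.S56.Flat.FC

open Fermat.Agent.S55 Fermat.Agent.S56
open Fermat.Agent.S53 (M2)

variable {k : Type} [Field k] {s : GQ →* M2 k} {pp : Nat.Primes} {p : ℕ}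

private theorem lur_exists_stable (F : IntermediateField ℚ Qb) (hF : FiniteDimensional ℚ F) :
    ∃ F' : IntermediateField ℚ Qb, FiniteDimensional ℚ F' ∧ IsStableField F' ∧ F ≤ F' := by
  have hF' : @FiniteDimensional ℚ F _ _ (IntermediateField.module' F) := by
    convert hF
  have : IsGalois ℚ Qb := Fermat.Agent.Lib.Frobenius.isGalois_rat
  refine ⟨IntermediateField.normalClosure ℚ F Qb, ?_, ?_, F.le_normalClosure⟩
  · have : FiniteDimensional ℚ (IntermediateField.normalClosure ℚ F Qb) :=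
      normalClosure.is_finiteDimensional ℚ F Qb
    convert this
  · intro g x hx
    have hn : Normal ℚ (IntermediateField.normalClosure ℚ F Qb) := normalClosure.normal ℚ F Qb
    have := (IntermediateField.normal_iff_forall_map_le'.1 hn) g
    exact this ⟨x, hx, rfl⟩

theorem smooth_Ad0 (h : ResHyp p s) : Smooth lvlAll (Ad0 s) := by
  obtain ⟨L, hL, hs1⟩ := h.fin
  obtain ⟨F', hF', hst, hle⟩ := lur_exists_stable L hL
  refine ⟨fun a => ⟨F'.fixingSubgroup, ⟨F', hF', hst, rfl⟩, fun n hn => ?_⟩⟩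
  have key : ∀ n ∈ F'.fixingSubgroup, s n = 1 := fun n hn =>
    hs1 n fun x hx => (IntermediateField.mem_fixingSubgroup_iff F' n).1 hn x (hle hx)
  apply Ad0.ext
  rw [Ad0.mat_smul, key n hn, key n⁻¹ (F'.fixingSubgroup.inv_mem hn), one_mul, mul_one]

theorem cls_mem_Lur_of_unrEq (hs : ResHyp p s) {c c' : LCoc pp s} (h : UnrEq c c') :
    (c.add c'.neg).cls ∈ Loc.Lur pp (Ad0 s) := by
  obtain ⟨m, hm, hI⟩ := h
  have := smooth_Ad0 hs
  let a : ResMod (ιv pp) (Ad0 s) := ResMod.toRes (ιv pp) (Ad0.mk m hm)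
  have hcob : (Loc.absUr_cob (lvlLoc pp) a).cls = 0 :=
    (Coc.cls_eq_zero_iff _).2 ⟨a, fun _ => rfl⟩
  refine ⟨(c.add c'.neg).add (Loc.absUr_cob (lvlLoc pp) a).neg, ?_, fun τ hτ => ?_⟩
  · rw [Coc.cls_add _ (Loc.absUr_cob (lvlLoc pp) a).neg, Coc.cls_neg, hcob, neg_zero, add_zero]
  · apply (ResMod.toRes (ιv pp)).symm.injective
    apply Ad0.ext
    change cm c τ + - cm c' τ + - (s (ιv pp τ) * m * s (ιv pp τ)⁻¹ - m) = 0
    rw [← hI τ hτ]
    abel

theorem card_Lur_le [Finite k] (hs : ResHyp p s) (pp : Nat.Primes) :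
    Finite (Loc.Lur pp (Ad0 s)) ∧
      Nat.card (Loc.Lur pp (Ad0 s)) ≤ Nat.card (Hloc pp (Ad0 s) 0) := by
  have := smooth_Ad0 hs
  have : Finite (ResMod (ιv pp) (Ad0 s)) := inferInstanceAs (Finite (Ad0 s))
  obtain ⟨φ, -, hφ⟩ := Loc.exists_isDenseGen pp
  exact Loc.card_LurA_le (S55.Loc.inertiaLoc_normal pp) hφ

end Fermat.Agent.S56.Flat.FC
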