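/-
S56 / FLAT / COUNT (chief helper139): ASSEMBLY.  `CountGoal pp s` implies the local tangent bound of
`Interface.FlatStatement`.
-/
import Fermat.Agent.S56.Flat.FC.Defs
import Fermat.Agent.S56.Flat.FC.Fibre
import Fermat.Agent.S56.Flat.FC.Cm
import Fermat.Agent.S56.Flat.FC.Lur
import Fermat.Agent.S56.Flat.FC.Baer
import Fermat.Agent.S56.Flat.FC.In

set_option autoImplicit false

namespace Fermat.Agent.S56.Flat.FC

open Fermat.Agent.S55 Fermat.Agent.S56 IsLocalRing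
open Fermat.Agent.S53 (M2 MatCont toAdic Gal Dk)

variable {k : Type} [Field k] {s : GQ →* M2 k} {pp : Nat.Primes}

/-- The classes of the flat local cocycles (if there is one). -/
def Lflat [Finite k] (c₀ : LCoc pp s) (h₀ : IsFlatCoc c₀) : AddSubgroup (Hloc pp (Ad0 s) 1) where
  carrier := {x | ∃ c : LCoc pp s, c.cls = x ∧ IsFlatCoc c}
  zero_mem' := ⟨c₀.add c₀.neg, by rw [Coc.cls_add, Coc.cls_neg, add_neg_cancel], h₀.add h₀.neg⟩
  add_mem' := by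
    rintro _ _ ⟨c, rfl, hc⟩ ⟨c', rfl, hc'⟩
    exact ⟨c.add c', Coc.cls_add c c', hc.add hc'⟩
  neg_mem' := by
    rintro _ ⟨c, rfl, hc⟩
    exact ⟨c.neg, Coc.cls_neg c, hc.neg⟩

theorem card_Lflat_le [Finite k] {p : ℕ} (hs : ResHyp p s) (hG : CountGoal pp s) (c₀ : LCoc pp s)
    (h₀ : IsFlatCoc c₀) : Finite (Lflat c₀ h₀) ∧
      Nat.card (Lflat c₀ h₀) ≤ Nat.card k * Nat.card (Hloc pp (Ad0 s) 0) := by
  obtain ⟨T, hT, Φ, hcard, hΦ⟩ := hG
  obtain ⟨hfin, hle⟩ := card_Lur_le (s := s) hs pp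
  have hx : ∀ x : Lflat c₀ h₀, ∃ c : LCoc pp s, c.cls = (x : Hloc pp (Ad0 s) 1) ∧ IsFlatCoc c :=
    fun x => x.2
  choose rep hrep hflat using hx
  have key := card_le_of_fibres (Lflat c₀ h₀) (Loc.Lur pp (Ad0 s))
    (fun x => Φ ⟨rep x, hflat x⟩) (fun x y hxy => by
      have h1 := cls_mem_Lur_of_unrEq hs (hΦ _ _ hxy)
      rw [Coc.cls_add, Coc.cls_neg, hrep, hrep, ← sub_eq_add_neg] at h1
      exact h1)
  exact ⟨key.1, key.2.trans (Nat.mul_le_mul hcard hle)⟩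

/-- **The local tangent bound from `CountGoal`.** -/
theorem localBound_of_countGoal {𝒪 : Type} [CommRing 𝒪] [IsLocalRing 𝒪] [Finite (ResidueField 𝒪)]
    (pp : Nat.Primes) (s : Gal →* M2 (ResidueField 𝒪)) (hs : ResHyp (pp : ℕ) s)
    (hG : CountGoal pp s) :
    LocalBound s pp (fun ρ => ρ.DetIsCyclotomic (pp : ℕ) ∧ ρ.IsFlatAt (pp : ℕ))
      (Nat.card (ResidueField 𝒪)) := by
  by_cases hex : ∃ c : LCoc pp s, IsFlatCoc c
  · obtain ⟨c₀, h₀⟩ := hex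
    obtain ⟨h1, h2⟩ := card_Lflat_le hs hG c₀ h₀
    refine ⟨Lflat c₀ h₀, h1, h2, fun S c r hr hl hP => ?_⟩
    exact ⟨c.loc pp, (Coc.locS_cls c pp).symm, isFlatCoc_loc pp s c r hr hl hP.2⟩
  · refine ⟨⊥, inferInstance, ?_, fun S c r hr hl hP => ?_⟩
    · obtain ⟨hfin, hle⟩ := card_Lur_le (s := s) hs pp
      have h1 : 0 < Nat.card (Loc.Lur pp (Ad0 s)) := Nat.card_pos
      have h2 : 0 < Nat.card (ResidueField 𝒪) := Nat.card_pos
      rw [AddSubgroup.card_bot]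
      exact Nat.mul_pos h2 (lt_of_lt_of_le h1 hle)
    · exact absurd ⟨c.loc pp, isFlatCoc_loc pp s c r hr hl hP.2⟩ hex

end Fermat.Agent.S56.Flat.FC
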