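/-
S56 / FLAT / COUNT (chief helper139): **`FlatStatement`** (the flat tangent bound at `p`), from the
top layer FC, the reducible case RED (helper15) and the irreducible case IRR (helper78), on top of
the geometric part of FLAT (helper116, helper18, helper53).
-/
import Fermat.Agent.S56.Flat.FC.Top
import Fermat.Agent.S56.Flat.FC.Adapter
import Fermat.Agent.S56.Flat.FC.IrrAdapter
import Fermat.Agent.S56.Flat.Red.MainD
import Fermat.Agent.S56.Flat.Irr.Main
import Fermat.Agent.S56.Flat.Irr.Adapter

set_option autoImplicit false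

namespace Fermat.Agent.S56.Flat.FC

open Fermat.Agent.S55 Fermat.Agent.S56 IsLocalRing

theorem flatStatement : FlatStatement := by
  intro 𝒪 _ _ _ p hp _ hp2 s hs
  have hA : (plc ⟨p, hp.out⟩).LiesOverPrime p :=
    Fermat.Agent.S55.Loc.UnitsLocAux.plc_liesOver ⟨p, hp.out⟩
  refine localBound_of_countGoal ⟨p, hp.out⟩ s hs (countGoal_of_countGoalD ?_)
  by_cases hred : HasLineA (plc ⟨p, hp.out⟩) s
  · exact Red.countGoalD_red hp.out hp2 hA hs hred
  · obtain ⟨φ, hφ⟩ := Irr.exists_irrHyp hp.out hp2 hs hred
    exact countGoalD_of_countCore (p := p) fun hflat =>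
      Irr.countCore_irr hφ hflat (isLocMap_subtype _)

end Fermat.Agent.S56.Flat.FC
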