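/-
S56 / FLAT / COUNT (chief helper139): the contract `CountGoalD` is invariant under conjugation of
the residual representation (`Red.conjHom P s = P⁻¹ s P`).
-/
import Fermat.Agent.S56.Flat.FC.DDefs
import Fermat.Agent.S56.Flat.Red.Defs
import Fermat.Agent.S56.Flat.Mod.Sub

set_option autoImplicit false

namespace Fermat.Agent.S56.Flat.FC

open Fermat.Agent.S55 Fermat.Agent.S56
open Fermat.Agent.S53 (M2)
open Fermat.Agent.S56.Flat.Red (conjHom)

variable {k : Type} [Field k] {s : GQ →* M2 k} {A : ValuationSubring Qb}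

theorem conjHom_apply (P : (M2 k)ˣ) (s : GQ →* M2 k) (g : GQ) :
    conjHom P s g = (↑P⁻¹ : M2 k) * s g * (P : M2 k) := rfl

theorem det_conjHom (P : (M2 k)ˣ) (s : GQ →* M2 k) (g : GQ) :
    (conjHom P s g).det = (s g).det := by
  rw [conjHom_apply, Matrix.det_mul, Matrix.det_mul, mul_right_comm, ← Matrix.det_mul,
    Units.inv_mul, Matrix.det_one, one_mul]

private theorem cj_sandwich (P : (M2 k)ˣ) (X Y : M2 k) :
    (↑P⁻¹ : M2 k) * X * (P : M2 k) * ((↑P⁻¹ : M2 k) * Y * (P : M2 k)) =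
      (↑P⁻¹ : M2 k) * (X * Y) * (P : M2 k) := by
  calc (↑P⁻¹ : M2 k) * X * (P : M2 k) * ((↑P⁻¹ : M2 k) * Y * (P : M2 k))
      = (↑P⁻¹ : M2 k) * X * ((P : M2 k) * (↑P⁻¹ : M2 k)) * Y * (P : M2 k) := by
        simp only [mul_assoc]
    _ = _ := by rw [Units.mul_inv, mul_one]; simp only [mul_assoc]

private theorem cj_trace (P : (M2 k)ˣ) (X : M2 k) :
    ((↑P⁻¹ : M2 k) * X * (P : M2 k)).trace = X.trace := by
  rw [Matrix.trace_mul_comm, ← mul_assoc, Units.mul_inv, one_mul]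

private theorem cj_trace' (P : (M2 k)ˣ) (X : M2 k) :
    ((P : M2 k) * X * (↑P⁻¹ : M2 k)).trace = X.trace := by
  rw [Matrix.trace_mul_comm, ← mul_assoc, Units.inv_mul, one_mul]

/-- The conjugate cocycle `P⁻¹ c P`. -/
def DCoc.conj (P : (M2 k)ˣ) (c : DCoc A s) : DCoc A (conjHom P s) where
  toFun g := (↑P⁻¹ : M2 k) * c g * (P : M2 k)
  map_mul' g hg h hh := by
    rw [c.map_mul hg hh, conjHom_apply, conjHom_apply, cj_sandwich, cj_sandwich, mul_add, add_mul]
  trace' g hg := by rw [cj_trace, c.trace hg]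
  level' := by
    obtain ⟨F, hF, h⟩ := c.level
    exact ⟨F, hF, fun g hg n hn hfix => by rw [h g hg n hn hfix]⟩

theorem DCoc.conj_apply (P : (M2 k)ˣ) (c : DCoc A s) (g : GQ) :
    c.conj P g = (↑P⁻¹ : M2 k) * c g * (P : M2 k) := rfl

/-- `(v, w) ↦ (P v, P w)`. -/
noncomputable def conjMap (P : (M2 k)ˣ) (c : DCoc A s) :
    WI (c.conj P).toICoc →+[↥(Iner A)] WI c.toICoc where
  toFun x := WI.mk _ ((P : M2 k).mulVec x.fst) ((P : M2 k).mulVec x.snd)
  map_smul' σ x := by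
    have h1 : (P : M2 k) * conjHom P s σ.1 = s σ.1 * (P : M2 k) := by
      rw [conjHom_apply, ← mul_assoc, ← mul_assoc, Units.mul_inv, one_mul]
    have h2 : (P : M2 k) * ((c.conj P) σ.1 * conjHom P s σ.1) = c σ.1 * s σ.1 * (P : M2 k) := by
      rw [DCoc.conj_apply, conjHom_apply, cj_sandwich, ← mul_assoc, ← mul_assoc, Units.mul_inv,
        one_mul]
    apply WI.ext
    · simp only [WI.fst_mk, WI.fst_smul, Matrix.mulVec_mulVec, h1, MonoidHom.id_apply]
    · simp only [WI.snd_mk, WI.snd_smul, WI.fst_mk, Matrix.mulVec_add, Matrix.mulVec_mulVec, h1,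
        DCoc.toICoc_apply, h2, MonoidHom.id_apply]
  map_zero' := by
    apply WI.ext <;> simp
  map_add' x y := by
    apply WI.ext <;> simp [Matrix.mulVec_add]

theorem conjMap_injective (P : (M2 k)ˣ) (c : DCoc A s) : Function.Injective (conjMap P c) := by
  intro x y h
  have hinj : ∀ v w : Fin 2 → k, (P : M2 k).mulVec v = (P : M2 k).mulVec w → v = w := by
    intro v w hvw
    have := congrArg (fun z => (↑P⁻¹ : M2 k).mulVec z) hvw
    simp only [Matrix.mulVec_mulVec, Units.inv_mul, Matrix.one_mulVec] at this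
    exact this
  apply WI.ext
  · exact hinj _ _ (congrArg (fun z : WI c.toICoc => z.fst) h)
  · exact hinj _ _ (congrArg (fun z : WI c.toICoc => z.snd) h)

theorem DCoc.conj_isFlat (P : (M2 k)ˣ) (c : DCoc A s) (hc : c.IsFlat) : (c.conj P).IsFlat :=
  FlatLoc.of_injective hc (conjMap P c) (conjMap_injective P c)

/-- **`CountGoalD` is invariant under conjugation.** -/
theorem countGoalD_of_conj (P : (M2 k)ˣ) (h : CountGoalD A (conjHom P s)) : CountGoalD A s := by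
  obtain ⟨T, hT, Φ, hcard, hΦ⟩ := h
  refine ⟨T, hT, fun c => Φ ⟨c.1.conj P, c.1.conj_isFlat P c.2⟩, hcard, fun c c' hcc => ?_⟩
  obtain ⟨m, hm, hm'⟩ := hΦ _ _ hcc
  refine ⟨(P : M2 k) * m * (↑P⁻¹ : M2 k), by rw [cj_trace', hm], fun σ hσ => ?_⟩
  have h1 := hm' σ hσ
  simp only [DCoc.conj_apply, conjHom_apply] at h1
  have h2 : ∀ X : M2 k, (P : M2 k) * ((↑P⁻¹ : M2 k) * X * (P : M2 k)) * (↑P⁻¹ : M2 k) = X := by
    intro X
    rw [← mul_assoc, ← mul_assoc, Units.mul_inv, one_mul, mul_assoc, Units.mul_inv, mul_one]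
  have h3 := congrArg (fun X => (P : M2 k) * X * (↑P⁻¹ : M2 k)) h1
  simp only [mul_sub, sub_mul, h2] at h3
  rw [h3]
  congr 1
  calc (P : M2 k) * ((↑P⁻¹ : M2 k) * s σ * (P : M2 k) * m * ((↑P⁻¹ : M2 k) * s σ⁻¹ * (P : M2 k))) *
        (↑P⁻¹ : M2 k)
      = ((P : M2 k) * (↑P⁻¹ : M2 k)) * s σ * ((P : M2 k) * m * (↑P⁻¹ : M2 k)) * s σ⁻¹ *
          ((P : M2 k) * (↑P⁻¹ : M2 k)) := by simp only [mul_assoc]
    _ = _ := by rw [Units.mul_inv, one_mul, mul_one]

end Fermat.Agent.S56.Flat.FC
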