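/-
S56 / FLAT / COUNT (chief helper139): `FlatStatement` from the two cases RED and IRR, stated as
Props (`RedStatement`, `IrrStatement`).  No unfinished proof, no WIP import.
-/
import Fermat.Agent.S56.Flat.FC.Top
import Fermat.Agent.S56.Flat.FC.Adapter

set_option autoImplicit false

namespace Fermat.Agent.S56.Flat.FC

open Fermat.Agent.S55 Fermat.Agent.S56 IsLocalRing
open Fermat.Agent.S53 (M2)

/-- RED: `ρ̄|D_p` has a stable line. -/
def RedStatement : Prop :=
  ∀ (k : Type) [Field k] [Finite k] (s : GQ →* M2 k) (p : ℕ) (A : ValuationSubring Qb) [CharP k p],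
    p.Prime → p ≠ 2 → A.LiesOverPrime p → ResHyp p s → HasLineA A s → CountGoalD A s

/-- IRR: `ρ̄|D_p` is irreducible. -/
def IrrStatement : Prop :=
  ∀ (k : Type) [Field k] [Finite k] (s : GQ →* M2 k) (p : ℕ) (A : ValuationSubring Qb) [CharP k p],
    p.Prime → p ≠ 2 → A.LiesOverPrime p → ResHyp p s → ¬ HasLineA A s → CountGoalD A s

theorem flatStatement_of_cases (hR : RedStatement) (hI : IrrStatement) : FlatStatement := by
  intro 𝒪 _ _ _ p hp _ hp2 s hs
  have hA : (plc ⟨p, hp.out⟩).LiesOverPrime p :=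
    Fermat.Agent.S55.Loc.UnitsLocAux.plc_liesOver ⟨p, hp.out⟩
  refine localBound_of_countGoal ⟨p, hp.out⟩ s hs (countGoal_of_countGoalD ?_)
  by_cases hred : HasLineA (plc ⟨p, hp.out⟩) s
  · exact hR _ s p _ hp.out hp2 hA hs hred
  · exact hI _ s p _ hp.out hp2 hA hs hred

end Fermat.Agent.S56.Flat.FC
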